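/-
S43 / Master / Conj : the kernel form of (GI2) at ONE place over `q` implies the kernel form at ALL places over `q`
(places are conjugate, `L[a,b,c]²` is stable under `M₂(A)`).  Adapter for `Core.AlgOut.hker` / `Top0.Datum.hstr`.
-/
import Fermat.Agent.PT.Base.Conj
import Fermat.Agent.S43.Exact.Mat
import Fermat.Agent.S53.Defs

set_option autoImplicit false

open Matrix

namespace Fermat.Agent.S43.Master

open Fermat.Agent.S53 (G M2)
open Fermat.Agent.PT
open Fermat.Agent.S43.Exact (matAct matAct_apply matAct_mul matAct_one)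

section alg

variable {A L : Type*} [CommRing A] [AddCommGroup L] [Module A L]

/-- `X` is scalar on the submodule `L₀`. -/
def ScalOn (L₀ : Submodule A L) (X : Matrix (Fin 2) (Fin 2) A) : Prop :=
  ∀ l ∈ L₀, X 0 1 • l = 0 ∧ X 1 0 • l = 0 ∧ (X 0 0 - X 1 1) • l = 0

theorem ScalOn.matAct_eq {L₀ : Submodule A L} {X : Matrix (Fin 2) (Fin 2) A} (h : ScalOn L₀ X)
    (v : Fin 2 → L) (hv : ∀ i, v i ∈ L₀) : matAct X v = X 0 0 • v := by
  funext i
  rw [matAct_apply, Pi.smul_apply]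
  obtain ⟨h01, -, -⟩ := h _ (hv 1)
  obtain ⟨-, h10, -⟩ := h _ (hv 0)
  obtain ⟨-, -, hd⟩ := h _ (hv 1)
  rw [sub_smul, sub_eq_zero] at hd
  fin_cases i
  · simp [h01]
  · simp [h10, hd]

theorem scalOn_of_matAct {L₀ : Submodule A L} {X : Matrix (Fin 2) (Fin 2) A} (e : A)
    (h : ∀ v : Fin 2 → L, (∀ i, v i ∈ L₀) → matAct X v = e • v) : ScalOn L₀ X := by
  intro l hl
  have h0 := h ![l, 0] (by intro i; fin_cases i <;> simp [hl])
  have h1 := h ![0, l] (by intro i; fin_cases i <;> simp [hl])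
  have a00 := congrFun h0 0
  have a10 := congrFun h0 1
  have a01 := congrFun h1 0
  have a11 := congrFun h1 1
  rw [matAct_apply] at a00 a10 a01 a11
  simp at a00 a10 a01 a11
  refine ⟨a01, a10, ?_⟩
  rw [sub_smul, a00, a11, sub_self]

theorem matAct_mem_of_mem (L₀ : Submodule A L) (X : Matrix (Fin 2) (Fin 2) A) (v : Fin 2 → L)
    (hv : ∀ i, v i ∈ L₀) (i : Fin 2) : matAct X v i ∈ L₀ := by
  rw [matAct_apply]
  exact L₀.add_mem (L₀.smul_mem _ (hv 0)) (L₀.smul_mem _ (hv 1))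

/-- conjugation invariance. -/
theorem ScalOn.conj {L₀ : Submodule A L} {X M M' : Matrix (Fin 2) (Fin 2) A} (h : ScalOn L₀ X)
    (hM : M * M' = 1) : ScalOn L₀ (M * X * M') := by
  refine scalOn_of_matAct (X 0 0) fun v hv => ?_
  rw [matAct_mul, matAct_mul, h.matAct_eq _ (matAct_mem_of_mem L₀ M' v hv), map_smul, ← matAct_mul, hM,
    matAct_one]

end alg

/-- **one place ⇒ all places.** -/
theorem scalOn_all_places {A : Type} {L : Type*} [CommRing A] [AddCommGroup L] [Module A L]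
    (R : G → M2 A) (hmul : ∀ σ τ, R (σ * τ) = R σ * R τ) (hone : R 1 = 1) (L₀ : Submodule A L)
    (q : Nat.Primes) (h : ∀ σ ∈ Dl q, ScalOn L₀ (R σ))
    (P : ValuationSubring (AlgebraicClosure ℚ)) (hP : P.LiesOverPrime (q : ℕ))
    (σ : G) (hσ : σ ∈ P.decompositionSubgroup ℚ) : ScalOn L₀ (R σ) := by
  obtain ⟨γ, rfl⟩ := Base.exists_smul_Pl0_eq hP
  have h1 : γ⁻¹ * σ * γ ∈ Dl q := (Base.mem_Dec_smul_iff γ σ (Base.Pl0 q)).1 hσ
  have h2 := (h _ h1).conj (M := R γ) (M' := R γ⁻¹) (by rw [← hmul, mul_inv_cancel, hone])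
  have h3 : R γ * R (γ⁻¹ * σ * γ) * R γ⁻¹ = R σ := by
    rw [← hmul, ← hmul]
    congr 1
    group
  rwa [h3] at h2

end Fermat.Agent.S43.Master
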