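/-
S43 / Master / FullDl : copy of `GWS.tw_strict_full` (helper56) with the scalar hypothesis and the strict condition only at the
chosen places `primeLocalPlace v` (`Dl v = Dec (primeLocalPlace v)`).
-/
import Fermat.Agent.S43.GWS.Full

set_option autoImplicit false

open Matrix Module ExtCitation Polynomial

noncomputable section

namespace Fermat.Agent.S43.Master

open Fermat.Agent.S53 (G M2)
open Fermat.Agent.S56
open Fermat.Agent.S56.B
open Fermat.Agent.S56.Lq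
open Fermat.Agent.S56.C (ad rm IsCoc IsCob liftMat)
open Fermat.Agent.PT
open Fermat.Agent.S43.GWS

variable {k : Type} [Field k]

/-- `GWS.tw_strict_full` with scalarity / strictness only at the places `primeLocalPlace v` (same proof). -/
theorem tw_strict_full_Dl [Finite k] (p : ℕ) [Fact p.Prime] [Algebra (ZMod p) k] (hp2 : p ≠ 2)
    (ρ : ResidualGaloisRep k) (habs : ρ.IsAbsolutelyIrreducible)
    (hdet : (GaloisRepAdic.ofResidualGaloisRep ρ).DetIsCyclotomic p)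
    (hsplit : ∀ σ : G, ∃ α β : k, LinearMap.charpoly (ρ.ρ σ) = (X - C α) * (X - C β))
    (hTW : ∀ (K : Type) [Field K] [Algebra k K] (H : Subgroup G), H.index = 2 →
      ∀ V : Submodule K (ρ.baseChange K).V,
        (∀ σ ∈ H, ∀ x ∈ V, (ρ.baseChange K).ρ σ x ∈ V) → V = ⊥ ∨ V = ⊤)
    (S Sram Sstr : Finset ℕ) (hpS : p ∈ Sram) (hSram : Sram ⊆ S) (hSstr : Sstr ⊆ S)
    (hdisj : Disjoint Sram Sstr) (hprime : ∀ q ∈ Sstr, q.Prime)
    (hmin : ∀ q : ℕ, q.Prime → q ≠ p → (q ∈ Sram ↔ ¬ ρ.IsUnramifiedAt q))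
    (hunip : ∀ q ∈ Sram, q.Prime → q ≠ p → ∀ P : ValuationSubring (AlgebraicClosure ℚ),
      P.LiesOverPrime q → ∀ σ ∈ P.inertiaSubgroupIn ℚ,
        (rm (T.matRep ρ) σ).trace = 2 ∧ (rm (T.matRep ρ) σ).det = 1)
    (hsq : ∀ q ∈ Sram, q.Prime → q ≠ p → ((q : ZMod p)) * ((q : ZMod p)) ≠ 1)
    (hscal : ∀ v : Nat.Primes, (v : ℕ) ∈ Sstr →
      ∀ σ ∈ Dl v, ∃ a : k, rm (T.matRep ρ) σ = a • (1 : M2 k)) :
    ∃ n₀ : ℕ, 3 * Sstr.card ≤ n₀ ∧ ∀ n : ℕ, ∃ qv : Fin n₀ → ℕ, Function.Injective qv ∧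
      (∀ i, (qv i).Prime ∧ qv i ∉ S ∧ p ^ (n + 1) ∣ qv i - 1) ∧
      (∀ i, ∀ P : ValuationSubring Qbar, P.LiesOverPrime (qv i) →
        ∀ φ : G, P.IsFrobeniusAt φ (qv i) →
          ∃ α β : k, α ≠ β ∧ LinearMap.charpoly (ρ.ρ φ) = (X - C α) * (X - C β)) ∧
      ∃ T₁ : Finset (G → M2 k), T₁.card ≤ Nat.card k ^ (n₀ - 3 * Sstr.card) ∧
        (∃ t ∈ T₁, IsCob (T.matRep ρ) t) ∧
        ∀ c, IsCoc (T.matRep ρ) c → C.Smooth c → C.TraceZero c →
          (∀ q : ℕ, q.Prime → q ∉ Sram ∪ Sstr ∪ Finset.univ.image qv → C.UnramAt c q) →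
          C.FlatAt (T.matRep ρ) c p →
          (∀ v : Nat.Primes, (v : ℕ) ∈ Sstr → ∀ σ ∈ Dl v, c σ = 0) →
          ∃ t ∈ T₁, IsCob (T.matRep ρ) (c - t) := by
  classical
  set r := T.matRep ρ with hrdef
  have hrs : RSmooth r := rSmooth_matRep ρ
  have hdc : DetCyc p r := detCyc_matRep ρ p hdet
  have hk1 : 1 < Nat.card k := Finite.one_lt_card
  have hpnot : p ∉ Sstr := fun h => Finset.disjoint_left.1 hdisj hpS h
  obtain ⟨n₀, h⟩ := tw_contract_slack p hp2 (G2.eulerStatement hp2) (Lq.urBound p) (Lq.tameBound p)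
    ρ habs hdet hsplit hTW S (Sram ∪ Sstr) (Finset.mem_union_left _ hpS)
    (Finset.union_subset hSram hSstr)
    (by
      intro q hq hqS
      rw [Finset.mem_union, not_or] at hqS
      have hqp : q ≠ p := fun h => hqS.1 (h ▸ hpS)
      by_contra hcon
      exact hqS.1 ((hmin q hq hqp).2 hcon))
    (fun v c => if (v : ℕ) ∈ Sstr then (∀ σ ∈ Dl v, c σ = 0) else
      (if (v : ℕ) = p then (IsCoc r c ∧ C.Smooth c ∧ C.TraceZero c ∧ C.FlatAt r c p) else True))
    (fun v => if (v : ℕ) ∈ Sstr then 3 else 0)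
    (by
      intro v hv
      by_cases hvs : (v : ℕ) ∈ Sstr
      · have hvp : (v : ℕ) ≠ p := fun h => hpnot (h ▸ hvs)
        simp only [if_pos hvs, if_neg hvp]
        exact strictContract p r v (hscal v hvs)
      · have hvr : (v : ℕ) ∈ Sram := (Finset.mem_union.1 hv).resolve_right hvs
        simp only [if_neg hvs]
        apply LocalContractS.of_contract
        by_cases hvp : (v : ℕ) = p
        · have hv' : v = pPrime p := Subtype.ext hvp
          subst hv'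
          simp only [pPrime_coe, if_true]
          exact flatContract_of_fun p hp2 F.flat_funContract _ r hrs hdc (T.split_matRep ρ hsplit)
        · simp only [if_neg hvp]
          exact fullContract hp2 r hrs v hvp
            (fun h => (hmin v v.2 hvp).1 hvr ((rUnramAt_matRep_iff ρ v).1 h)) (hunip v hvr v.2 hvp)
            (hsq v hvr v.2 hvp))
  rw [sum_toPrimes_ite Sram Sstr hprime] at h
  have hle : 3 * Sstr.card ≤ n₀ := by
    obtain ⟨qv, -, -, -, T₁, hT, ⟨t, ht, -⟩, -⟩ := h 0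
    have h1 : 1 ≤ T₁.card := Finset.card_pos.2 ⟨t, ht⟩
    have h2 : Nat.card k ^ (3 * Sstr.card) ≤ Nat.card k ^ n₀ :=
      le_trans (Nat.le_mul_of_pos_left _ h1) hT
    exact (Nat.pow_le_pow_iff_right hk1).1 h2
  refine ⟨n₀, hle, fun n => ?_⟩
  obtain ⟨qv, hinj, h1, h2, T₁, hT, hT0, hTc⟩ := h n
  refine ⟨qv, hinj, h1, h2, T₁, ?_, hT0, fun c hc hs ht hu hf hst => ?_⟩
  · have h3 : Nat.card k ^ n₀ = Nat.card k ^ (n₀ - 3 * Sstr.card) * Nat.card k ^ (3 * Sstr.card) := by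
      rw [← pow_add, Nat.sub_add_cancel hle]
    rw [h3] at hT
    exact Nat.le_of_mul_le_mul_right hT (pow_pos (by omega) _)
  · refine hTc c hc hs ht hu fun v hv => ?_
    by_cases hvs : (v : ℕ) ∈ Sstr
    · simp only [if_pos hvs]
      exact hst v hvs
    · simp only [if_neg hvs]
      by_cases hvp : (v : ℕ) = p
      · simp only [if_pos hvp]
        exact ⟨hc, hs, ht, hf⟩
      · simp only [if_neg hvp]

end Fermat.Agent.S43.Master

end
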