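/-
S43 / Master / Main : THE ALGEBRA HALF OF ROUTE TWX0 IN ONE THEOREM.

`TWXData r p S' Sstr n₀ P d` = what the geometry has to deliver at ONE Taylor-Wiles level (kernel form, on `L` itself);
`master` : residual hypotheses of `GWS.tw_strict_full` + (for every TW set `qv` of depth `n`: `TWXData` with `P = p^(n+1)` and
a bound `d n₀` independent of `n`)  ==>  `False`.
-/
import Fermat.Agent.S43.Master.FullDl
import Fermat.Agent.S43.Tan.Ker

set_option autoImplicit false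

open Matrix Module ExtCitation Polynomial

noncomputable section

namespace Fermat.Agent.S43.Master

open Fermat.Agent.S53 (G M2)
open Fermat.Agent.S56
open Fermat.Agent.S56.C (ad rm IsCoc IsCob liftMat)
open Fermat.Agent.PT
open Fermat.Agent.S43.Tan

/-- **THE INTERFACE GEOMETRY → ALGEBRA** (one Taylor-Wiles level).
* `S'` = primes where the lifts may ramify (`Sram ∪ Sstr ∪ Q`), `Sstr` = the scalar ("bad") primes;
* `A` = finite local `k`-algebra (augmentation `π`, nilpotent kernel) generated by the traces of `R : G → M₂(A)`, `R ≡ r`;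
* `L` = finite dimensional `k`-space with `A`-action;
* `a b c` (indexed by the primes of `Sstr`) = entries of `R σ_q - 1`; kernel form of (GI2) on `Dl q`;
* `y i`, `Pi i ≥ P` = the Taylor-Wiles variables. -/
def TWXData {k : Type} [Field k] (r : G →* GL (Fin 2) k) (p : ℕ) (S' Sstr : Finset ℕ)
    (n₀ P d : ℕ) : Prop :=
  ∃ (A : Type) (_ : CommRing A) (_ : Algebra k A) (_ : Module.Finite k A)
    (L : Type) (_ : AddCommGroup L) (_ : Module k L) (_ : Module A L) (_ : IsScalarTower k A L)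
    (_ : FiniteDimensional k L)
    (π : A →ₐ[k] k) (R : G → M2 A) (a b c : ℕ → A) (y : Fin n₀ → A) (Pi : Fin n₀ → ℕ),
    (∃ N, (RingHom.ker π : Ideal A) ^ N = ⊥) ∧
    (∀ σ, (R σ).map π = rm r σ) ∧
    Algebra.adjoin k (Set.range fun σ => (R σ).trace) = ⊤ ∧
    (∀ (φ : A →ₐ[k] DualNumber k) (c : G → M2 k), Function.Surjective φ →
      (∀ σ, (R σ).map φ = liftMat r c σ) → SelProps r c p S' ∅) ∧
    (∀ q ∈ Sstr, a q ∈ RingHom.ker π ∧ b q ∈ RingHom.ker π ∧ c q ∈ RingHom.ker π) ∧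
    (∀ q ∈ Sstr, ∀ l : L, (a q ^ 2 + b q * c q) • l = 0) ∧
    (∀ v : Nat.Primes, (v : ℕ) ∈ Sstr → ∀ σ ∈ Dl v,
      ∀ z ∈ ({R σ 0 1, R σ 1 0, R σ 0 0 - R σ 1 1} : Set A), ∀ l : L,
        a v • l = 0 → b v • l = 0 → c v • l = 0 → z • l = 0) ∧
    (∀ i, y i ∈ RingHom.ker π) ∧ (∀ i, P ≤ Pi i) ∧ (∀ i (l : L), y i ^ Pi i • l = 0) ∧
    (∃ v : L, (∏ i, y i ^ (Pi i - 1)) • v ≠ 0) ∧
    finrank k (kerFam k L y) ≤ d

variable {k : Type} [Field k]

/-- one level: `TWXData` + the Selmer bound ⇒ contradiction for `P` large. -/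
theorem false_of_data [Finite k] (h2 : (2 : k) ≠ 0) (r : G →* GL (Fin 2) k) (p : ℕ)
    (S' Sstr : Finset ℕ) (n₀ P d : ℕ) (hP1 : 1 ≤ P) (hdata : TWXData r p S' Sstr n₀ P d)
    (hscal : ∀ v : Nat.Primes, (v : ℕ) ∈ Sstr → ∀ σ ∈ Dl v, ∃ a : k, rm r σ = a • (1 : M2 k))
    (T₁ : Finset (G → M2 k)) (g : ℕ) (hcard : T₁.card ≤ Nat.card k ^ g)
    (ht0 : ∃ t ∈ T₁, IsCob r t)
    (hT : ∀ c, IsCoc r c → C.Smooth c → C.TraceZero c →
      (∀ q : ℕ, q.Prime → q ∉ S' → C.UnramAt c q) → C.FlatAt r c p →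
      (∀ v : Nat.Primes, (v : ℕ) ∈ Sstr → ∀ σ ∈ Dl v, c σ = 0) → ∃ t ∈ T₁, IsCob r (c - t))
    (hdim : 2 * Sstr.card + g < n₀)
    (hP : d * 2 ^ Sstr.card * (d * (n₀ + 1)) ^ (2 * Sstr.card + g) < P) : False := by
  classical
  obtain ⟨A, _, _, _, L, _, _, _, _, _, π, R, a, b, c, y, Pi, hnil, hR, htr, hprop, habc, hrel, hker,
    hyπ, hPi, hyP, hA, hB⟩ := hdata
  let e := Sstr.equivFin
  have hmem : ∀ j : Fin Sstr.card, ((e.symm j : Sstr) : ℕ) ∈ Sstr := fun j => (e.symm j).2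
  have hall : ∀ (f : ℕ → A) (l : L), (∀ j : Fin Sstr.card, f (e.symm j : Sstr) • l = 0) →
      ∀ q ∈ Sstr, f q • l = 0 := by
    intro f l h q hq
    have := h (e ⟨q, hq⟩)
    rwa [Equiv.symm_apply_apply] at this
  refine master_ker h2 π hnil r R hR htr p S' ∅ hprop
    {σ | ∃ v : Nat.Primes, (v : ℕ) ∈ Sstr ∧ σ ∈ Dl v}
    (by rintro σ ⟨v, hv, hσ⟩; exact hscal v hv σ hσ)
    (L := L) (fun j => a (e.symm j : Sstr)) (fun j => b (e.symm j : Sstr))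
    (fun j => c (e.symm j : Sstr))
    (fun j => (habc _ (hmem j)).1) (fun j => (habc _ (hmem j)).2.1) (fun j => (habc _ (hmem j)).2.2)
    (fun j l => hrel _ (hmem j) l)
    (by
      rintro σ ⟨v, hv, hσ⟩ z hz l h1 h2' h3
      exact hker v hv σ hσ z hz l (hall a l h1 v hv) (hall b l h2' v hv) (hall c l h3 v hv))
    T₁ g hcard ht0
    (by
      intro c' hc hs ht hu hf _ hst
      exact hT c' hc hs ht hu hf (fun v hv σ hσ => hst σ ⟨v, hv, hσ⟩))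
    y hyπ P d Pi hP1 hPi hyP hA hB hdim hP

/-- **MASTER THEOREM: the algebra half of TWX0.** -/
theorem master [Finite k] (p : ℕ) [Fact p.Prime] [Algebra (ZMod p) k] (hp2 : p ≠ 2)
    (ρ : ResidualGaloisRep k) (habs : ρ.IsAbsolutelyIrreducible)
    (hdet : (GaloisRepAdic.ofResidualGaloisRep ρ).DetIsCyclotomic p)
    (hsplit : ∀ σ : G, ∃ α β : k, LinearMap.charpoly (ρ.ρ σ) = (X - C α) * (X - C β))
    (hTW : ∀ (K : Type) [Field K] [Algebra k K] (H : Subgroup G), H.index = 2 →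
      ∀ V : Submodule K (ρ.baseChange K).V,
        (∀ σ ∈ H, ∀ x ∈ V, (ρ.baseChange K).ρ σ x ∈ V) → V = ⊥ ∨ V = ⊤)
    (S Sram Sstr : Finset ℕ) (hpS : p ∈ Sram) (hSram : Sram ⊆ S) (hSstr : Sstr ⊆ S)
    (hdisj : Disjoint Sram Sstr) (hprime : ∀ q ∈ Sstr, q.Prime)
    (hmin : ∀ q : ℕ, q.Prime → q ≠ p → (q ∈ Sram ↔ ¬ ρ.IsUnramifiedAt q))
    (hunip : ∀ q ∈ Sram, q.Prime → q ≠ p → ∀ P : ValuationSubring (AlgebraicClosure ℚ),
      P.LiesOverPrime q → ∀ σ ∈ P.inertiaSubgroupIn ℚ,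
        (rm (T.matRep ρ) σ).trace = 2 ∧ (rm (T.matRep ρ) σ).det = 1)
    (hsq : ∀ q ∈ Sram, q.Prime → q ≠ p → ((q : ZMod p)) * ((q : ZMod p)) ≠ 1)
    (hscal : ∀ v : Nat.Primes, (v : ℕ) ∈ Sstr →
      ∀ σ ∈ Dl v, ∃ a : k, rm (T.matRep ρ) σ = a • (1 : M2 k))
    (hne : Sstr.Nonempty) (d : ℕ → ℕ)
    (hdata : ∀ (n₀ n : ℕ) (qv : Fin n₀ → ℕ), Function.Injective qv →
      (∀ i, (qv i).Prime ∧ qv i ∉ S ∧ p ^ (n + 1) ∣ qv i - 1) →
      (∀ i, ∀ P : ValuationSubring Qbar, P.LiesOverPrime (qv i) →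
        ∀ φ : G, P.IsFrobeniusAt φ (qv i) →
          ∃ α β : k, α ≠ β ∧ LinearMap.charpoly (ρ.ρ φ) = (X - C α) * (X - C β)) →
      TWXData (T.matRep ρ) p (Sram ∪ Sstr ∪ Finset.univ.image qv) Sstr n₀ (p ^ (n + 1)) (d n₀)) :
    False := by
  have hpp : p.Prime := Fact.out
  have : CharP k p := charP_of_injective_algebraMap (algebraMap (ZMod p) k).injective p
  have h2 : (2 : k) ≠ 0 := by
    intro h
    have h3 : ((2 : ℕ) : k) = 0 := by exact_mod_cast h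
    rw [CharP.cast_eq_zero_iff k p] at h3
    exact hp2 ((Nat.prime_dvd_prime_iff_eq hpp Nat.prime_two).1 h3)
  obtain ⟨n₀, hle, h⟩ := tw_strict_full_Dl p hp2 ρ habs hdet hsplit hTW S Sram Sstr hpS hSram hSstr
    hdisj hprime hmin hunip hsq hscal
  set B := d n₀ * 2 ^ Sstr.card * (d n₀ * (n₀ + 1)) ^ (2 * Sstr.card + (n₀ - 3 * Sstr.card)) with hB
  obtain ⟨qv, hinj, h1, h2', T₁, hT, hT0, hTc⟩ := h B
  have hcardpos : 0 < Sstr.card := Finset.card_pos.2 hne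
  refine false_of_data h2 (T.matRep ρ) p (Sram ∪ Sstr ∪ Finset.univ.image qv) Sstr n₀ (p ^ (B + 1))
    (d n₀) (Nat.one_le_pow _ _ hpp.pos) (hdata n₀ B qv hinj h1 h2') hscal T₁ (n₀ - 3 * Sstr.card) hT hT0
    hTc (by omega) ?_
  calc B < 2 ^ B := Nat.lt_two_pow_self
    _ ≤ p ^ B := Nat.pow_le_pow_left hpp.two_le B
    _ ≤ p ^ (B + 1) := Nat.pow_le_pow_right hpp.pos (Nat.le_succ B)

end Fermat.Agent.S43.Master

end
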